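import Mathlib
import Fermat.Agent.S30.EisChar

/-!
# A weight-4 Eisenstein sum on `Γ₁(M)` with integral `q`-expansion

For `x : ZMod M` we consider the coefficient-weighted Eisenstein sum
`uSep M x τ = ∑_{m ≡ ±x (M)} ∑_n (m τ + n)^(-4)` (built on `S30/EisChar.eisC`) and compute,
for `x ≠ 0`, its `q`-series:
`uSep M x τ = 2 * ((-2πi)^4 / 3!) * ∑_{n ≥ 1} (∑_{e d = n, e ≡ ±x} d^3) q^n`.
-/

set_option autoImplicit false

open scoped Manifold MatrixGroups ModularForm Topology Nat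
open UpperHalfPlane EisensteinSeries Matrix CongruenceSubgroup Filter Complex Real

noncomputable section

namespace Fermat.Agent.S48.Sep1

open Fermat.Agent.S30.EisChar

/-- Indicator of the residue classes `±x` modulo `M`. -/
def ind (M : ℕ) (x : ZMod M) (m : ℤ) : ℂ :=
  if (m : ZMod M) = x ∨ (m : ZMod M) = -x then 1 else 0

theorem ind_neg (M : ℕ) (x : ZMod M) (m : ℤ) : ind M x (-m) = ind M x m := by
  unfold ind
  have h : (((-m : ℤ) : ZMod M) = x ∨ ((-m : ℤ) : ZMod M) = -x) ↔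
      ((m : ZMod M) = x ∨ (m : ZMod M) = -x) := by
    push_cast
    constructor
    · rintro (h | h)
      · right; rw [← h, neg_neg]
      · left; exact neg_injective h
    · rintro (h | h)
      · right; rw [h]
      · left; rw [h, neg_neg]
  simp only [h]

theorem norm_ind_le (M : ℕ) (x : ZMod M) (m : ℤ) : ‖ind M x m‖ ≤ 1 := by
  unfold ind
  split_ifs <;> simp

theorem ind_zero {M : ℕ} {x : ZMod M} (hx : x ≠ 0) : ind M x 0 = 0 := by
  unfold ind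
  rw [if_neg]
  push_cast
  rintro (h | h)
  · exact hx h.symm
  · exact hx (neg_eq_zero.mp h.symm)

/-- The coefficient function: indicator of `v 0 ≡ ±x (mod M)`. -/
def cSep (M : ℕ) (x : ZMod M) (v : Fin 2 → ℤ) : ℂ := ind M x (v 0)

theorem norm_cSep_le (M : ℕ) (x : ZMod M) (v : Fin 2 → ℤ) : ‖cSep M x v‖ ≤ 1 :=
  norm_ind_le M x (v 0)

/-- The Eisenstein sum `∑_{m ≡ ±x} ∑_n (m τ + n)^(-4)`. -/
def uSep (M : ℕ) (x : ZMod M) : ℍ → ℂ := eisC (cSep M x) 4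

/-- The `q`-coefficients of `uSep` (up to the universal constant). -/
def aSep (M : ℕ) (x : ZMod M) (n : ℕ) : ℂ :=
  ∑ p ∈ n.divisorsAntidiagonal, ind M x (p.1 : ℤ) * (p.2 : ℂ) ^ 3

theorem aSep_zero (M : ℕ) (x : ZMod M) : aSep M x 0 = 0 := by
  simp [aSep]

/-- The coefficients `aSep` are integers. -/
theorem aSep_int (M : ℕ) (x : ZMod M) (n : ℕ) : ∃ m : ℤ, aSep M x n = (m : ℂ) := by
  classical
  refine ⟨∑ p ∈ n.divisorsAntidiagonal,
    (if ((p.1 : ℤ) : ZMod M) = x ∨ ((p.1 : ℤ) : ZMod M) = -x then 1 else 0) * (p.2 : ℤ) ^ 3, ?_⟩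
  unfold aSep ind
  push_cast
  refine Finset.sum_congr rfl fun p _ => ?_
  split_ifs <;> simp

theorem aSep_one (M : ℕ) (x : ZMod M) : aSep M x 1 = ind M x 1 := by
  simp [aSep]

/-! ### The double series -/

theorem summable_ind_prod (M : ℕ) (x : ZMod M) (z : ℍ) :
    Summable fun p : ℤ × ℤ => ind M x p.1 * eisSummand 4 ![p.1, p.2] z := by
  have h := summable_prod_eisSummand (k := 4) (by norm_num) z
  have h' : Summable fun p : ℤ × ℤ => ‖eisSummand 4 ![p.1, p.2] z‖ := by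
    simpa using summable_norm_iff.mpr h
  refine Summable.of_norm_bounded h' fun p => ?_
  rw [norm_mul]
  calc ‖ind M x p.1‖ * ‖eisSummand 4 ![p.1, p.2] z‖
      ≤ 1 * ‖eisSummand 4 ![p.1, p.2] z‖ :=
        mul_le_mul_of_nonneg_right (norm_ind_le M x p.1) (norm_nonneg _)
    _ = _ := one_mul _

theorem uSep_eq_tsum_int (M : ℕ) (x : ZMod M) (z : ℍ) :
    uSep M x z = ∑' m : ℤ, ind M x m * ∑' n : ℤ, eisSummand 4 ![m, n] z := by
  unfold uSep eisC cSep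
  rw [← (finTwoArrowEquiv ℤ).symm.tsum_eq]
  simp only [finTwoArrowEquiv_symm_apply, Matrix.cons_val_zero]
  rw [Summable.tsum_prod (summable_ind_prod M x z)]
  refine tsum_congr fun m => ?_
  show ∑' c : ℤ, ind M x m * eisSummand 4 ![m, c] z = _
  exact tsum_mul_left

theorem tsum_eisSummand_row (m : ℕ+) (z : ℍ) :
    ∑' n : ℤ, eisSummand 4 ![(m : ℤ), n] z =
      ((-2 * π * Complex.I) ^ 4 / 3 !) *
        ∑' d : ℕ+, (d : ℂ) ^ 3 * cexp (2 * π * Complex.I * z) ^ ((m : ℕ) * (d : ℕ)) := by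
  have H := qExpansion_identity_pnat (k := 3) (by norm_num) ⟨m * z, by simpa using z.2⟩
  simp only [Nat.reduceAdd, one_div] at H
  have h1 : ∀ n : ℤ, eisSummand 4 ![(m : ℤ), n] z = (((m : ℂ) * z + n) ^ 4)⁻¹ := by
    intro n
    simp [eisSummand]
  simp_rw [h1]
  rw [show (∑' n : ℤ, (((m : ℂ) * z + n) ^ 4)⁻¹) =
      ∑' n : ℤ, ((((⟨m * z, by simpa using z.2⟩ : ℍ) : ℂ) + n) ^ 4)⁻¹ from rfl, H]
  congr 1
  refine tsum_congr fun d => ?_
  congr 1
  rw [← Complex.exp_nat_mul, ← Complex.exp_nat_mul]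
  congr 1
  push_cast
  ring

theorem uSep_eq_tsum_pnat {M : ℕ} {x : ZMod M} (hx : x ≠ 0) (z : ℍ) :
    uSep M x z = 2 * ∑' m : ℕ+, ind M x m * ∑' n : ℤ, eisSummand 4 ![(m : ℤ), n] z := by
  rw [uSep_eq_tsum_int, tsum_int_eq_zero_add_two_mul_tsum_pnat (fun m => ?_) ?_]
  · simp [ind_zero hx]
  · have h := (summable_ind_prod M x z).prod
    refine h.congr fun m => ?_
    show ∑' c : ℤ, ind M x m * eisSummand 4 ![m, c] z = _
    exact tsum_mul_left
  · rw [ind_neg]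
    congr 1
    rw [← tsum_comp_neg (fun n : ℤ => eisSummand 4 ![-m, n] z)]
    refine tsum_congr fun y => ?_
    simp only [eisSummand, Matrix.cons_val_zero, Matrix.cons_val_one, Int.cast_neg]
    rw [show (-(m : ℂ) * z + -(y : ℂ)) = -((m : ℂ) * z + y) by ring]
    exact Even.neg_zpow ⟨-2, by norm_num⟩ _

theorem summable_ind_pnat_prod (M : ℕ) (x : ZMod M) {r : ℂ} (hr : ‖r‖ < 1) :
    Summable fun p : ℕ+ × ℕ+ =>
      ind M x (p.1 : ℤ) * ((p.2 : ℂ) ^ 3 * r ^ ((p.1 : ℕ) * (p.2 : ℕ))) := by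
  have h := summable_prod_mul_pow (𝕜 := ℂ) 3 hr
  refine Summable.of_norm_bounded (summable_norm_iff.mpr h) fun p => ?_
  rw [norm_mul]
  calc ‖ind M x (p.1 : ℤ)‖ * ‖(p.2 : ℂ) ^ 3 * r ^ ((p.1 : ℕ) * (p.2 : ℕ))‖
      ≤ 1 * ‖(p.2 : ℂ) ^ 3 * r ^ ((p.1 : ℕ) * (p.2 : ℕ))‖ :=
        mul_le_mul_of_nonneg_right (norm_ind_le M x _) (norm_nonneg _)
    _ = _ := one_mul _

theorem hasSum_aSep (M : ℕ) (x : ZMod M) {r : ℂ} (hr : ‖r‖ < 1) :
    HasSum (fun n : ℕ+ => aSep M x n * r ^ (n : ℕ))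
      (∑' p : ℕ+ × ℕ+, ind M x (p.1 : ℤ) * ((p.2 : ℂ) ^ 3 * r ^ ((p.1 : ℕ) * (p.2 : ℕ)))) := by
  have h1 := (summable_ind_pnat_prod M x hr).hasSum
  have h2 := (sigmaAntidiagonalEquivProd.hasSum_iff).mpr h1
  refine h2.sigma fun n => ?_
  have h3 : aSep M x n * r ^ (n : ℕ) = ∑ y : (n : ℕ).divisorsAntidiagonal,
      ((fun p : ℕ+ × ℕ+ => ind M x (p.1 : ℤ) * ((p.2 : ℂ) ^ 3 * r ^ ((p.1 : ℕ) * (p.2 : ℕ)))) ∘
        sigmaAntidiagonalEquivProd) ⟨n, y⟩ := by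
    unfold aSep
    rw [Finset.sum_mul, Finset.univ_eq_attach,
      ← Finset.sum_attach (n : ℕ).divisorsAntidiagonal
        (fun p => ind M x (p.1 : ℤ) * (p.2 : ℂ) ^ 3 * r ^ (n : ℕ))]
    refine Finset.sum_congr rfl fun y _ => ?_
    have hy := (Nat.mem_divisorsAntidiagonal.mp y.2).1
    simp only [Function.comp, sigmaAntidiagonalEquivProd, divisorsAntidiagonalFactors,
      Equiv.coe_fn_mk, PNat.mk_coe]
    rw [hy]
    ring
  rw [h3]
  exact hasSum_fintype _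

theorem tsum_ind_pnat_prod (M : ℕ) (x : ZMod M) {r : ℂ} (hr : ‖r‖ < 1) :
    ∑' p : ℕ+ × ℕ+, ind M x (p.1 : ℤ) * ((p.2 : ℂ) ^ 3 * r ^ ((p.1 : ℕ) * (p.2 : ℕ))) =
      ∑' n : ℕ+, aSep M x n * r ^ (n : ℕ) :=
  (hasSum_aSep M x hr).tsum_eq.symm

/-- **The `q`-series of `uSep`.** -/
theorem uSep_eq_tsum {M : ℕ} {x : ZMod M} (hx : x ≠ 0) (z : ℍ) :
    uSep M x z = 2 * ((-2 * π * Complex.I) ^ 4 / 3 !) *
      ∑' n : ℕ+, aSep M x n * cexp (2 * π * Complex.I * z) ^ (n : ℕ) := by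
  have hr := norm_exp_two_pi_I_lt_one z
  rw [uSep_eq_tsum_pnat hx]
  simp_rw [tsum_eisSummand_row]
  rw [← tsum_ind_pnat_prod M x hr, Summable.tsum_prod (summable_ind_pnat_prod M x hr)]
  have key : ∀ m : ℕ+, ind M x (m : ℤ) * (((-2 * π * Complex.I) ^ 4 / 3 !) *
      ∑' d : ℕ+, (d : ℂ) ^ 3 * cexp (2 * π * Complex.I * z) ^ ((m : ℕ) * (d : ℕ))) =
      ((-2 * π * Complex.I) ^ 4 / 3 !) * ∑' d : ℕ+, ind M x (m : ℤ) *
        ((d : ℂ) ^ 3 * cexp (2 * π * Complex.I * z) ^ ((m : ℕ) * (d : ℕ))) := by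
    intro m
    rw [tsum_mul_left]
    ring
  simp_rw [key]
  rw [tsum_mul_left]
  ring

/-! ### The normalised form `uHat` and its `q`-expansion -/

/-- The universal constant `2 (-2πi)^4 / 3!`. -/
def cSepConst : ℂ := 2 * ((-2 * π * Complex.I) ^ 4 / 3 !)

theorem cSepConst_ne_zero : cSepConst ≠ 0 := by
  unfold cSepConst
  have h1 : (-2 * (π : ℂ) * Complex.I) ≠ 0 := by
    simp [Real.pi_ne_zero, Complex.I_ne_zero]
  have h2 : ((3 ! : ℕ) : ℂ) ≠ 0 := by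
    exact_mod_cast (Nat.factorial_ne_zero 3)
  exact mul_ne_zero two_ne_zero (div_ne_zero (pow_ne_zero 4 h1) h2)

/-- The normalised Eisenstein sum `uSep / (2 (-2πi)^4 / 3!)`. -/
def uHat (M : ℕ) (x : ZMod M) : ℍ → ℂ := cSepConst⁻¹ • uSep M x

theorem uHat_apply (M : ℕ) (x : ZMod M) (τ : ℍ) : uHat M x τ = cSepConst⁻¹ * uSep M x τ := rfl

theorem uHat_eq_tsum {M : ℕ} {x : ZMod M} (hx : x ≠ 0) (z : ℍ) :
    uHat M x z = ∑' n : ℕ+, aSep M x n * cexp (2 * π * Complex.I * z) ^ (n : ℕ) := by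
  rw [uHat_apply, uSep_eq_tsum hx, ← cSepConst, ← mul_assoc, inv_mul_cancel₀ cSepConst_ne_zero,
    one_mul]

theorem hasSum_uHat {M : ℕ} {x : ZMod M} (hx : x ≠ 0) (τ : ℍ) :
    HasSum (fun n : ℕ => aSep M x n • Function.Periodic.qParam 1 (τ : ℂ) ^ n) (uHat M x τ) := by
  have hr := norm_exp_two_pi_I_lt_one τ
  have hq : Function.Periodic.qParam 1 (τ : ℂ) = cexp (2 * π * Complex.I * τ) := by
    simp [Function.Periodic.qParam]
  have h := hasSum_aSep M x hr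
  rw [tsum_ind_pnat_prod M x hr, ← uHat_eq_tsum hx] at h
  have h' := (hasSum_pnat_iff (f := fun n : ℕ => aSep M x n * cexp (2 * π * Complex.I * τ) ^ n)).mp h
  simp only [aSep_zero, zero_mul, add_zero] at h'
  simpa [hq, smul_eq_mul] using h'

theorem uHat_vadd_one {M : ℕ} {x : ZMod M} (hx : x ≠ 0) (τ : ℍ) :
    uHat M x ((1 : ℝ) +ᵥ τ) = uHat M x τ := by
  have h1 := hasSum_uHat hx ((1 : ℝ) +ᵥ τ)
  have h2 := hasSum_uHat hx τ
  have hq : Function.Periodic.qParam 1 (((1 : ℝ) +ᵥ τ : ℍ) : ℂ) =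
      Function.Periodic.qParam 1 (τ : ℂ) := by
    simp only [Function.Periodic.qParam, UpperHalfPlane.coe_vadd, ofReal_one, div_one]
    rw [mul_add, Complex.exp_add, mul_one, Complex.exp_two_pi_mul_I, one_mul]
  rw [hq] at h1
  exact h1.unique h2

/-- A function on `ℍ` invariant under `τ ↦ τ + 1` gives a `1`-periodic function on `ℂ`. -/
theorem periodic_of_vadd_one {f : ℍ → ℂ} (h : ∀ τ : ℍ, f ((1 : ℝ) +ᵥ τ) = f τ) :
    Function.Periodic (f ∘ ofComplex) 1 := by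
  intro w
  simp only [Function.comp]
  by_cases hw : 0 < w.im
  · have hw' : 0 < (w + 1).im := by simpa using hw
    rw [ofComplex_apply_of_im_pos hw, ofComplex_apply_of_im_pos hw', ← h ⟨w, hw⟩]
    congr 1
    ext
    simp [add_comm]
  · have hw' : (w + 1).im ≤ 0 := by simpa using not_lt.mp hw
    rw [ofComplex_apply_eq_of_im_nonpos hw' (not_lt.mp hw)]

theorem uSep_mdifferentiable (M : ℕ) (x : ZMod M) : MDifferentiable 𝓘(ℂ) 𝓘(ℂ) (uSep M x) :=
  eisC_mdifferentiable (norm_cSep_le M x) (by norm_num)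

theorem isBoundedAtImInfty_uSep_slash (M : ℕ) (x : ZMod M) (A : SL(2, ℤ)) :
    IsBoundedAtImInfty (uSep M x ∣[(4 : ℤ)] A) :=
  isBoundedAtImInfty_eisC_slash (norm_cSep_le M x) (by norm_num) A

theorem uHat_mdifferentiable (M : ℕ) (x : ZMod M) : MDifferentiable 𝓘(ℂ) 𝓘(ℂ) (uHat M x) :=
  (uSep_mdifferentiable M x).const_smul _

theorem uHat_slash (M : ℕ) (x : ZMod M) (A : SL(2, ℤ)) :
    uHat M x ∣[(4 : ℤ)] A = cSepConst⁻¹ • (uSep M x ∣[(4 : ℤ)] A) :=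
  ModularForm.SL_smul_slash 4 A (uSep M x) cSepConst⁻¹

theorem isBoundedAtImInfty_uHat_slash (M : ℕ) (x : ZMod M) (A : SL(2, ℤ)) :
    IsBoundedAtImInfty (uHat M x ∣[(4 : ℤ)] A) := by
  rw [uHat_slash]
  exact (isBoundedAtImInfty_uSep_slash M x A).const_smul_left _

theorem isBoundedAtImInfty_uHat (M : ℕ) (x : ZMod M) : IsBoundedAtImInfty (uHat M x) := by
  have h := isBoundedAtImInfty_uHat_slash M x 1
  rwa [SlashAction.slash_one] at h

/-- Plain functions `ℍ → ℂ` as a `FunLike` type (to apply the uniqueness of `q`-expansions). -/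
def FnSep : Type := ℍ → ℂ

instance : FunLike FnSep ℍ ℂ where
  coe f := f
  coe_injective _ _ h := h

/-- **The `q`-expansion of `uHat`.** -/
theorem qExpansion_uHat_coeff {M : ℕ} {x : ZMod M} (hx : x ≠ 0) (n : ℕ) :
    (qExpansion 1 (uHat M x)).coeff n = aSep M x n :=
  (UpperHalfPlane.qExpansion_coeff_unique (F := FnSep) (show FnSep from uHat M x) one_pos
    (analyticAt_cuspFunction_zero one_pos (periodic_of_vadd_one (uHat_vadd_one hx))
      (uHat_mdifferentiable M x) (isBoundedAtImInfty_uHat M x))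
    (hasSum_uHat hx) n).symm

end Fermat.Agent.S48.Sep1
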